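/-
KW-BRIDGE, piece EXP (helper197): `ord_v (dy) = ord_v y - 1` whenever `ord_v y ≠ 0`
(characteristic zero, algebraically closed constants).

Route: the `π`-adic expansion `expand v hv π hπ : F →+* LaurentSeries K` at the place `v`
(`Fermat/Agent/S17/H197/BCExpansion.lean`, `order_expand : ord_z ∘ σ = ord_v`) fed into
`S24/H84/OrdDiff.lean: place_ordDifferential_D_of_ord_ne_zero` (multiplicity `1`).
-/
import Fermat.Agent.S17.H197.BCExpansion
import Fermat.Agent.S24.H84.OrdDiff
import Fermat.Agent.S24.FFSum

set_option autoImplicit false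

noncomputable section

namespace Fermat.Agent.Lib.KW.H197

open AlgebraicCurve KaehlerDifferential
open Fermat.Agent.S24

variable {K F : Type*} [Field K] [Field F] [Algebra K F] [IsAlgClosed K] [CharZero K]

/-- **EXP** (exact statement of the KW skeleton).  `ord_v (dy) = ord_v y - 1` whenever
`ord_v y ≠ 0`. -/
theorem ordDifferential_D_of_ord_ne_zero (x : F) [FF.IsCoord K x] (v : Place K F) (y : F)
    (hy : v.ord y ≠ 0) : v.ordDifferential (D K F y) = v.ord y - 1 := by
  have : v.DCoordGenerates := H84.place_dCoordGenerates x v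
  have hv : v.deg = 1 := FF.deg_eq_one v (FF.IsCoord.transcendental (K := K) (t := x))
  obtain ⟨π, hπ⟩ := Fermat.Agent.Lib.RR.exists_ord_eq_one v
  have hπ1 : v.ord π = 1 := hπ
  exact H84.place_ordDifferential_D_of_ord_ne_zero v
    (Fermat.Agent.S17.H197.expand v hv π hπ1) (RingHom.id K)
    (fun c => Fermat.Agent.S17.H197.expand_algebraMap v hv π hπ1 c) 1 one_pos
    (fun f _ => by
      rw [Fermat.Agent.S17.H197.order_expand v hv π hπ1 f]; simp) y hy

/-- Variant: `ord_v (dy) = ord_v (y - a) - 1` whenever `ord_v (y - a) ≠ 0`, `a` constant. -/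
theorem ordDifferential_D_of_ord_sub_ne_zero (x : F) [FF.IsCoord K x] (v : Place K F) (y : F)
    (a : K) (hy : v.ord (y - algebraMap K F a) ≠ 0) :
    v.ordDifferential (D K F y) = v.ord (y - algebraMap K F a) - 1 := by
  have := ordDifferential_D_of_ord_ne_zero x v _ hy
  rwa [map_sub, Derivation.map_algebraMap, sub_zero] at this

end Fermat.Agent.Lib.KW.H197
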